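import Mathlib

/-!
# Row S25: the algebraic model (frozen definitions, layer L3)

Pure commutative algebra; no schemes.  A line bundle on a scheme covered by two affine opens
`Spec R₀`, `Spec R₁` with affine intersection `Spec R₀₁` is a *gluing datum*
`(N₀, N₁, N₀₁, r₀, r₁)`.  For the curve `C = Spec B₀ ∪ Spec B₁` over `k` and a `k`-algebra `A`
the rings are `A ⊗[k] B₀`, `A ⊗[k] B₁`, `A ⊗[k] B₀₁`.
Row-lead: helper985.  Board: coord/S25.md.
-/

set_option autoImplicit false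
universe u
open scoped TensorProduct

namespace Fermat.Agent.S25

noncomputable section

/-! ## Gluing data over a cospan of rings `R₀ → R₀₁ ← R₁` of `A`-algebras -/

/-- A gluing datum of invertible modules over the cospan `R₀ → R₀₁ ← R₁` of `A`-algebras:
sections over the two charts and over their intersection, with the restriction maps, which
are base-change maps. -/
structure GlueDatum (A R₀ R₁ R₀₁ : Type u) [CommRing A] [CommRing R₀] [CommRing R₁]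
    [CommRing R₀₁] [Algebra A R₀] [Algebra A R₁] [Algebra A R₀₁] [Algebra R₀ R₀₁]
    [Algebra R₁ R₀₁] [IsScalarTower A R₀ R₀₁] [IsScalarTower A R₁ R₀₁] where
  N₀ : Type u
  N₁ : Type u
  N₀₁ : Type u
  [addCommGroup₀ : AddCommGroup N₀]
  [addCommGroup₁ : AddCommGroup N₁]
  [addCommGroup₀₁ : AddCommGroup N₀₁]
  [module₀ : Module R₀ N₀]
  [module₁ : Module R₁ N₁]
  [module₀₁ : Module R₀₁ N₀₁]
  [moduleL : Module R₀ N₀₁]
  [moduleR : Module R₁ N₀₁]
  [towerL : IsScalarTower R₀ R₀₁ N₀₁]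
  [towerR : IsScalarTower R₁ R₀₁ N₀₁]
  [baseModule₀ : Module A N₀]
  [baseModule₁ : Module A N₁]
  [baseModule₀₁ : Module A N₀₁]
  [baseTower₀ : IsScalarTower A R₀ N₀]
  [baseTower₁ : IsScalarTower A R₁ N₁]
  [baseTower₀₁ : IsScalarTower A R₀₁ N₀₁]
  /-- restriction from the chart `Spec R₀` to the intersection -/
  r₀ : N₀ →ₗ[R₀] N₀₁
  /-- restriction from the chart `Spec R₁` to the intersection -/
  r₁ : N₁ →ₗ[R₁] N₀₁
  isBaseChange₀ : IsBaseChange R₀₁ r₀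
  isBaseChange₁ : IsBaseChange R₀₁ r₁
  invertible₀ : Module.Invertible R₀ N₀
  invertible₁ : Module.Invertible R₁ N₁

namespace GlueDatum

attribute [instance] addCommGroup₀ addCommGroup₁ addCommGroup₀₁ module₀ module₁ module₀₁
  moduleL moduleR towerL towerR baseModule₀ baseModule₁ baseModule₀₁ baseTower₀ baseTower₁
  baseTower₀₁

section Basic

variable {A R₀ R₁ R₀₁ : Type u} [CommRing A] [CommRing R₀] [CommRing R₁]
    [CommRing R₀₁] [Algebra A R₀] [Algebra A R₁] [Algebra A R₀₁] [Algebra R₀ R₀₁]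
    [Algebra R₁ R₀₁] [IsScalarTower A R₀ R₀₁] [IsScalarTower A R₁ R₀₁]

/-- An isomorphism of gluing data: compatible linear equivalences. -/
structure Iso (G G' : GlueDatum A R₀ R₁ R₀₁) where
  e₀ : G.N₀ ≃ₗ[R₀] G'.N₀
  e₁ : G.N₁ ≃ₗ[R₁] G'.N₁
  e₀₁ : G.N₀₁ ≃ₗ[R₀₁] G'.N₀₁
  comm₀ : ∀ s, e₀₁ (G.r₀ s) = G'.r₀ (e₀ s)
  comm₁ : ∀ s, e₀₁ (G.r₁ s) = G'.r₁ (e₁ s)

/-- Two gluing data are isomorphic. -/
def IsIso (G G' : GlueDatum A R₀ R₁ R₀₁) : Prop := Nonempty (Iso G G')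

instance towerBaseL (G : GlueDatum A R₀ R₁ R₀₁) : IsScalarTower A R₀ G.N₀₁ :=
  ⟨fun a r n => by
    rw [← algebraMap_smul R₀₁ (a • r) n, ← algebraMap_smul R₀₁ r n, Algebra.smul_def,
      map_mul, ← IsScalarTower.algebraMap_apply A R₀ R₀₁, mul_smul, algebraMap_smul R₀₁ a]⟩

instance towerBaseR (G : GlueDatum A R₀ R₁ R₀₁) : IsScalarTower A R₁ G.N₀₁ :=
  ⟨fun a r n => by
    rw [← algebraMap_smul R₀₁ (a • r) n, ← algebraMap_smul R₀₁ r n, Algebra.smul_def,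
      map_mul, ← IsScalarTower.algebraMap_apply A R₁ R₀₁, mul_smul, algebraMap_smul R₀₁ a]⟩

/-- The Čech differential `(s₀, s₁) ↦ r₀ s₀ - r₁ s₁`, an `A`-linear map. -/
def cech (G : GlueDatum A R₀ R₁ R₀₁) : (G.N₀ × G.N₁) →ₗ[A] G.N₀₁ :=
  (G.r₀.restrictScalars A).coprod (-(G.r₁.restrictScalars A))

/-- `Ȟ⁰` of a gluing datum: compatible pairs of sections. -/
abbrev H0 (G : GlueDatum A R₀ R₁ R₀₁) : Submodule A (G.N₀ × G.N₁) := LinearMap.ker G.cech

/-- `Ȟ¹` of a gluing datum. -/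
abbrev H1 (G : GlueDatum A R₀ R₁ R₀₁) : Type u := G.N₀₁ ⧸ LinearMap.range G.cech

/-- The unit gluing datum `(R₀, R₁, R₀₁)`. -/
def unit (A R₀ R₁ R₀₁ : Type u) [CommRing A] [CommRing R₀] [CommRing R₁]
    [CommRing R₀₁] [Algebra A R₀] [Algebra A R₁] [Algebra A R₀₁] [Algebra R₀ R₀₁]
    [Algebra R₁ R₀₁] [IsScalarTower A R₀ R₀₁] [IsScalarTower A R₁ R₀₁] :
    GlueDatum A R₀ R₁ R₀₁ where
  N₀ := R₀
  N₁ := R₁
  N₀₁ := R₀₁
  r₀ := Algebra.linearMap R₀ R₀₁
  r₁ := Algebra.linearMap R₁ R₀₁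
  isBaseChange₀ := IsBaseChange.linearMap R₀ R₀₁
  isBaseChange₁ := IsBaseChange.linearMap R₁ R₀₁
  invertible₀ := inferInstance
  invertible₁ := inferInstance

end Basic

section Field

variable {K R₀ R₁ R₀₁ : Type u} [Field K] [CommRing R₀] [CommRing R₁]
    [CommRing R₀₁] [Algebra K R₀] [Algebra K R₁] [Algebra K R₀₁] [Algebra R₀ R₀₁]
    [Algebra R₁ R₀₁] [IsScalarTower K R₀ R₀₁] [IsScalarTower K R₁ R₀₁]

/-- Euler characteristic `dim Ȟ⁰ - dim Ȟ¹` of a gluing datum over a field (meaningful when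
both are finite-dimensional, which is a theorem for curve charts). -/
def euler (G : GlueDatum K R₀ R₁ R₀₁) : ℤ :=
  (Module.finrank K G.H0 : ℤ) - (Module.finrank K G.H1 : ℤ)

/-- Degree of a gluing datum over a field: `χ(G) - χ(O)`. -/
def degree (G : GlueDatum K R₀ R₁ R₀₁) : ℤ := G.euler - (unit K R₀ R₁ R₀₁).euler

end Field

end GlueDatum

/-! ## Base change of gluing data along a morphism of cospans -/

/-- `b : N → N'` is `ρ`-semilinear and exhibits `N'` as the base change `R' ⊗[R] N`. -/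
def IsSemilinearBaseChange {R R' : Type u} [CommRing R] [CommRing R'] (ρ : R →+* R')
    {N N' : Type u} [AddCommGroup N] [Module R N] [AddCommGroup N'] [Module R' N']
    (b : N →ₛₗ[ρ] N') : Prop :=
  letI : Algebra R R' := ρ.toAlgebra
  letI : Module R N' := Module.compHom N' ρ
  haveI : IsScalarTower R R' N' := ⟨fun r r' n => by
    change (ρ r * r') • n = ρ r • (r' • n); rw [mul_smul]⟩
  IsBaseChange R' (show N →ₗ[R] N' from
    { toFun := fun n => b n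
      map_add' := fun m n => b.map_add m n
      map_smul' := fun r n => LinearMap.map_smulₛₗ b r n })

namespace GlueDatum

section BaseChange

variable {A R₀ R₁ R₀₁ : Type u} [CommRing A] [CommRing R₀] [CommRing R₁]
    [CommRing R₀₁] [Algebra A R₀] [Algebra A R₁] [Algebra A R₀₁] [Algebra R₀ R₀₁]
    [Algebra R₁ R₀₁] [IsScalarTower A R₀ R₀₁] [IsScalarTower A R₁ R₀₁]
    {A' R₀' R₁' R₀₁' : Type u} [CommRing A'] [CommRing R₀'] [CommRing R₁']
    [CommRing R₀₁'] [Algebra A' R₀'] [Algebra A' R₁'] [Algebra A' R₀₁'] [Algebra R₀' R₀₁']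
    [Algebra R₁' R₀₁'] [IsScalarTower A' R₀' R₀₁'] [IsScalarTower A' R₁' R₀₁']

/-- Maps exhibiting `G'` as the base change of `G` along the ring maps `ρ₀, ρ₁, ρ₀₁` (which
are assumed to form a morphism of cospans by whoever uses this). -/
structure BaseChangeMaps (ρ₀ : R₀ →+* R₀') (ρ₁ : R₁ →+* R₁') (ρ₀₁ : R₀₁ →+* R₀₁')
    (G : GlueDatum A R₀ R₁ R₀₁) (G' : GlueDatum A' R₀' R₁' R₀₁') where
  b₀ : G.N₀ →ₛₗ[ρ₀] G'.N₀
  b₁ : G.N₁ →ₛₗ[ρ₁] G'.N₁
  b₀₁ : G.N₀₁ →ₛₗ[ρ₀₁] G'.N₀₁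
  comm₀ : ∀ s, b₀₁ (G.r₀ s) = G'.r₀ (b₀ s)
  comm₁ : ∀ s, b₀₁ (G.r₁ s) = G'.r₁ (b₁ s)
  isBaseChange₀ : IsSemilinearBaseChange ρ₀ b₀
  isBaseChange₁ : IsSemilinearBaseChange ρ₁ b₁
  isBaseChange₀₁ : IsSemilinearBaseChange ρ₀₁ b₀₁

/-- `G'` is a base change of `G` along `(ρ₀, ρ₁, ρ₀₁)`. -/
def IsBC (ρ₀ : R₀ →+* R₀') (ρ₁ : R₁ →+* R₁') (ρ₀₁ : R₀₁ →+* R₀₁')
    (G : GlueDatum A R₀ R₁ R₀₁) (G' : GlueDatum A' R₀' R₁' R₀₁') : Prop :=
  Nonempty (BaseChangeMaps ρ₀ ρ₁ ρ₀₁ G G')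

end BaseChange

end GlueDatum

/-! ## Curve charts -/

section Curve

variable (k : Type u) [Field k]

/-- The map `A ⊗[k] B → A ⊗[k] B'` induced by an algebra `B → B'`. -/
def tensorMapRight (A B B' : Type u) [CommRing A] [Algebra k A] [CommRing B] [CommRing B']
    [Algebra k B] [Algebra k B'] [Algebra B B'] [IsScalarTower k B B'] :
    A ⊗[k] B →ₐ[A] A ⊗[k] B' :=
  Algebra.TensorProduct.map (AlgHom.id A A) (IsScalarTower.toAlgHom k B B')

/-- The map `A ⊗[k] B → A' ⊗[k] B` induced by `φ : A → A'`. -/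
def tensorMapLeft {A A' : Type u} [CommRing A] [Algebra k A] [CommRing A'] [Algebra k A']
    (φ : A →ₐ[k] A') (B : Type u) [CommRing B] [Algebra k B] :
    A ⊗[k] B →+* A' ⊗[k] B :=
  (Algebra.TensorProduct.map φ (AlgHom.id k B)).toRingHom

/-- `A ⊗[k] B'` as an algebra over `A ⊗[k] B` (scoped, low priority). -/
scoped instance (priority := 100) tensorAlgebraRight (A B B' : Type u) [CommRing A]
    [Algebra k A] [CommRing B] [CommRing B'] [Algebra k B] [Algebra k B'] [Algebra B B']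
    [IsScalarTower k B B'] : Algebra (A ⊗[k] B) (A ⊗[k] B') :=
  (tensorMapRight k A B B').toRingHom.toAlgebra

scoped instance (priority := 100) tensorTowerRight (A B B' : Type u) [CommRing A]
    [Algebra k A] [CommRing B] [CommRing B'] [Algebra k B] [Algebra k B'] [Algebra B B']
    [IsScalarTower k B B'] : IsScalarTower A (A ⊗[k] B) (A ⊗[k] B') :=
  IsScalarTower.of_algebraMap_eq' (tensorMapRight k A B B').comp_algebraMap.symm

variable (B₀ B₁ B₀₁ : Type u) [CommRing B₀] [CommRing B₁] [CommRing B₀₁]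
  [Algebra k B₀] [Algebra k B₁] [Algebra k B₀₁] [Algebra B₀ B₀₁] [Algebra B₁ B₀₁]
  [IsScalarTower k B₀ B₀₁] [IsScalarTower k B₁ B₀₁]

/-- `(B₀, B₁, B₀₁, x, y, e)` is a two-chart presentation of a smooth proper curve over `k`
with a marked point: `C = Spec B₀ ∪ Spec B₁`, `Spec B₀₁ = D(x) = D(y)`, `x y = 1`, the
function `x : C → P¹` is finite, and `e` is a `k`-point of `Spec B₁` with `y = 0`. -/
structure IsCurveChart (x : B₀) (y : B₁) (e : B₁ →ₐ[k] k) : Prop where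
  isDomain₀ : IsDomain B₀
  isDomain₁ : IsDomain B₁
  away₀ : IsLocalization.Away x B₀₁
  away₁ : IsLocalization.Away y B₀₁
  mul_eq_one : algebraMap B₀ B₀₁ x * algebraMap B₁ B₀₁ y = 1
  finite₀ : (Polynomial.aeval x : Polynomial k →ₐ[k] B₀).Finite
  finite₁ : (Polynomial.aeval y : Polynomial k →ₐ[k] B₁).Finite
  smooth₀ : Algebra.Smooth k B₀
  smooth₁ : Algebra.Smooth k B₁
  omega₀ : Module.Invertible B₀ Ω[B₀⁄k]
  omega₁ : Module.Invertible B₁ Ω[B₁⁄k]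
  e_y : e y = 0

/-- Gluing data on `C_A` for the curve chart `(B₀, B₁, B₀₁)`. -/
abbrev CurveGD (A : Type u) [CommRing A] [Algebra k A] : Type (u + 1) :=
  GlueDatum A (A ⊗[k] B₀) (A ⊗[k] B₁) (A ⊗[k] B₀₁)

variable {k B₀ B₁ B₀₁}

/-- `G'` over `A'` is a base change of `G` over `A` along `φ : A → A'`. -/
def CurveGD.IsBC {A A' : Type u} [CommRing A] [Algebra k A] [CommRing A'] [Algebra k A']
    (φ : A →ₐ[k] A') (G : CurveGD k B₀ B₁ B₀₁ A) (G' : CurveGD k B₀ B₁ B₀₁ A') : Prop :=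
  GlueDatum.IsBC (tensorMapLeft k φ B₀) (tensorMapLeft k φ B₁) (tensorMapLeft k φ B₀₁) G G'

/-- The section `A ⊗[k] B₁ → A` of `C_A → Spec A` given by the marked point `e`. -/
def epsHom (e : B₁ →ₐ[k] k) (A : Type u) [CommRing A] [Algebra k A] : A ⊗[k] B₁ →ₐ[A] A :=
  Algebra.TensorProduct.lift (AlgHom.id A A) ((Algebra.ofId k A).comp e)
    (fun _ _ => Commute.all _ _)

/-- The gluing datum can be rigidified along the marked point: `e^* N₁ ≅ A`. -/
def CurveGD.Rigidifiable (e : B₁ →ₐ[k] k) {A : Type u} [CommRing A] [Algebra k A]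
    (G : CurveGD k B₀ B₁ B₀₁ A) : Prop :=
  ∃ b : G.N₁ →ₛₗ[(epsHom e A).toRingHom] A, IsSemilinearBaseChange _ b

/-- Degree zero on every fibre. -/
def CurveGD.Deg0 {A : Type u} [CommRing A] [Algebra k A]
    (G : CurveGD k B₀ B₁ B₀₁ A) : Prop :=
  ∀ (K : Type u) [Field K] [Algebra k K] (φ : A →ₐ[k] K) (G' : CurveGD k B₀ B₁ B₀₁ K),
    CurveGD.IsBC φ G G' → G'.degree = 0

variable (k B₀ B₁ B₀₁)

/-- A family of affine charts of the algebraic Picard functor (algebraic form of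
`ChartFamily`). -/
structure AlgChartFamily (e : B₁ →ₐ[k] k) where
  ι : Type u
  R : ι → Type u
  [commRing : ∀ i, CommRing (R i)]
  [algebra : ∀ i, Algebra k (R i)]
  finiteType : ∀ i, Algebra.FiniteType k (R i)
  datum : ∀ i, CurveGD k B₀ B₁ B₀₁ (R i)
  rig : ∀ i, (datum i).Rigidifiable e
  deg0 : ∀ i, (datum i).Deg0
  inj : ∀ (i : ι) (A : Type u) [CommRing A] [Algebra k A] (φ ψ : R i →ₐ[k] A)
    (G G' : CurveGD k B₀ B₁ B₀₁ A), CurveGD.IsBC φ (datum i) G →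
      CurveGD.IsBC ψ (datum i) G' → G.IsIso G' → φ = ψ
  locus : ∀ (A : Type u) [CommRing A] [Algebra k A] (G : CurveGD k B₀ B₁ B₀₁ A),
    G.Rigidifiable e → G.Deg0 →
    ∃ I : ι → Ideal A, (⨆ i, I i) = ⊤ ∧
      ∀ (i : ι) (A' : Type u) [CommRing A'] [Algebra k A'] (ψ : A →ₐ[k] A')
        (G' : CurveGD k B₀ B₁ B₀₁ A'), CurveGD.IsBC ψ G G' →
        ((∃ φ : R i →ₐ[k] A', CurveGD.IsBC φ (datum i) G') ↔ (I i).map ψ.toRingHom = ⊤)

attribute [instance] AlgChartFamily.commRing AlgChartFamily.algebra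

namespace Stmt

/-- ALG-CHARTS: the algebraic Picard functor of a curve chart has an affine chart family. -/
def AlgCharts : Prop :=
  ∀ (x : B₀) (y : B₁) (e : B₁ →ₐ[k] k), IsCurveChart k B₀ B₁ B₀₁ x y e →
    Nonempty (AlgChartFamily k B₀ B₁ B₀₁ e)

/-- ALG-DEF: gluing data lift along square-zero extensions. -/
def AlgDef : Prop :=
  ∀ (x : B₀) (y : B₁) (e : B₁ →ₐ[k] k), IsCurveChart k B₀ B₁ B₀₁ x y e →
    ∀ (A : Type u) [CommRing A] [Algebra k A] (I : Ideal A), I ^ 2 = ⊥ →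
      ∀ G₀ : CurveGD k B₀ B₁ B₀₁ (A ⧸ I),
        ∃ G : CurveGD k B₀ B₁ B₀₁ A, CurveGD.IsBC (Ideal.Quotient.mkₐ k I) G G₀

/-- ALG-VAL: over a valuation ring, degree-zero gluing data that become isomorphic over the
fraction field are isomorphic. -/
def AlgVal : Prop :=
  ∀ (x : B₀) (y : B₁) (e : B₁ →ₐ[k] k), IsCurveChart k B₀ B₁ B₀₁ x y e →
    ∀ (V : Type u) [CommRing V] [IsDomain V] [ValuationRing V] [Algebra k V]
      (K : Type u) [Field K] [Algebra V K] [IsFractionRing V K] [Algebra k K]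
      [IsScalarTower k V K] (G G' : CurveGD k B₀ B₁ B₀₁ V) (GK GK' : CurveGD k B₀ B₁ B₀₁ K),
      G.Deg0 → G'.Deg0 → CurveGD.IsBC (IsScalarTower.toAlgHom k V K) G GK →
        CurveGD.IsBC (IsScalarTower.toAlgHom k V K) G' GK' → GK.IsIso GK' → G.IsIso G'

end Stmt

end Curve

end

end Fermat.Agent.S25
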