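import Fermat.Statements.S25

/-!
# Row S25 (Jacobian of a curve): frozen interface, layer L1/L2

Everything here is a DEFINITION (mostly of `Prop`s).  Nothing is proved and nothing is assumed.
A block "proves statement `Stmt.X`" by exhibiting a term of type `Stmt.X k c ε` (possibly from
hypotheses `Stmt.Y k c ε` of lower blocks).  Row-lead: helper985.  Board: coord/S25.md.
-/

set_option autoImplicit false
universe u
open CategoryTheory CategoryTheory.Limits AlgebraicGeometry AlgebraicGeometry.RelPicard
  NeronModelInfra GoodReductionJacobian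

namespace Fermat.Agent.S25

noncomputable section

/-- Structure morphism `Spec A ⟶ Spec k` of a `k`-algebra `A`. -/
abbrev specStr (k : Type u) [CommRing k] (A : Type u) [CommRing A] [Algebra k A] :
    Spec (CommRingCat.of A) ⟶ Spec (CommRingCat.of k) :=
  Spec.map (CommRingCat.ofHom (algebraMap k A))

/-- `Spec` of a `k`-algebra homomorphism `A → A'`, as a morphism over `Spec k`. -/
def specHomOver (k : Type u) [CommRing k] {A A' : Type u} [CommRing A] [CommRing A']
    [Algebra k A] [Algebra k A'] (φ : A →ₐ[k] A') :
    SchemeHomOver (specStr k A') (specStr k A) :=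
  ⟨Spec.map (CommRingCat.ofHom φ.toRingHom), by
    rw [specStr, specStr, ← Spec.map_comp, ← CommRingCat.ofHom_comp]
    congr 2
    exact φ.comp_algebraMap⟩

section Setup

variable {k : Type u} [Field k] {C : Scheme.{u}} (c : C ⟶ Spec (CommRingCat.of k))
  (ε : SchemeHomOver (𝟙 (Spec (CommRingCat.of k))) c)

/-- Restriction of a rigidified line bundle over `T` to an open subscheme `U ⊆ T`. -/
abbrev restrictOpen {c : C ⟶ Spec (CommRingCat.of k)}
    {ε : SchemeHomOver (𝟙 (Spec (CommRingCat.of k))) c}
    {T : Scheme.{u}} {t : T ⟶ Spec (CommRingCat.of k)}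
    (M : RigidifiedLineBundle c ε t) (U : T.Opens) : RigidifiedLineBundle c ε (U.ι ≫ t) :=
  M.pullbackAlong (⟨U.ι, rfl⟩ : SchemeHomOver (U.ι ≫ t) t)

/-- Restriction from an open `U` to a smaller open `V ≤ U`. -/
abbrev restrictLE {c : C ⟶ Spec (CommRingCat.of k)}
    {ε : SchemeHomOver (𝟙 (Spec (CommRingCat.of k))) c}
    {T : Scheme.{u}} {t : T ⟶ Spec (CommRingCat.of k)} {U V : T.Opens}
    (M : RigidifiedLineBundle c ε (U.ι ≫ t)) (h : V ≤ U) : RigidifiedLineBundle c ε (V.ι ≫ t) :=
  M.pullbackAlong (⟨T.homOfLE h, by rw [← Category.assoc, Scheme.homOfLE_ι]⟩ :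
    SchemeHomOver (V.ι ≫ t) (U.ι ≫ t))

/-- Two rigidified line bundles are isomorphic (as line bundles; this is the Prelude's setoid). -/
abbrev RIso {c : C ⟶ Spec (CommRingCat.of k)}
    {ε : SchemeHomOver (𝟙 (Spec (CommRingCat.of k))) c}
    {T : Scheme.{u}} {t : T ⟶ Spec (CommRingCat.of k)}
    (M M' : RigidifiedLineBundle c ε t) : Prop := Nonempty (M.L ≅ M'.L)

namespace Stmt

/-! ## L2: Zariski descent in the base `T` -/

/-- SHEAF-SEP: isomorphism of rigidified line bundles is Zariski-local on the base. -/
def SheafSep : Prop :=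
  ∀ {T : Scheme.{u}} (t : T ⟶ Spec (CommRingCat.of k)) {ι : Type u} (U : ι → T.Opens),
    (⨆ i, U i) = ⊤ → ∀ M M' : RigidifiedLineBundle c ε t,
      (∀ i, RIso (restrictOpen M (U i)) (restrictOpen M' (U i))) → RIso M M'

/-- SHEAF-GLUE: rigidified line bundles glue along a Zariski cover of the base as soon as they
are isomorphic on the pairwise overlaps (no cocycle condition: rigidified bundles have no
automorphisms). -/
def SheafGlue : Prop :=
  ∀ {T : Scheme.{u}} (t : T ⟶ Spec (CommRingCat.of k)) {ι : Type u} (U : ι → T.Opens),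
    (⨆ i, U i) = ⊤ → ∀ M : ∀ i, RigidifiedLineBundle c ε ((U i).ι ≫ t),
      (∀ i j, RIso (restrictLE (M i) (inf_le_left : U i ⊓ U j ≤ U i))
        (restrictLE (M j) (inf_le_right : U i ⊓ U j ≤ U j))) →
      ∃ M₀ : RigidifiedLineBundle c ε t, ∀ i, RIso (restrictOpen M₀ (U i)) (M i)

/-- LOCAL-P: degree zero (= the Prelude's `FibrewiseAlgEquivZero`) is Zariski-local on the
base.  (Formal: every geometric point of `T` factors through some `U i`.) -/
def LocalP : Prop :=
  ∀ {T : Scheme.{u}} (t : T ⟶ Spec (CommRingCat.of k)) {ι : Type u} (U : ι → T.Opens),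
    (⨆ i, U i) = ⊤ → ∀ M : RigidifiedLineBundle c ε t,
      (∀ i, FibrewiseAlgEquivZero (restrictOpen M (U i))) → FibrewiseAlgEquivZero M

/-! ## L1: the four pillars -/

/-- REP: the functor is representable by a scheme locally of finite type over `k`. -/
def Rep : Prop :=
  ∃ D : RelativePic0Designation k c,
    Nonempty (RepresentsRelSubPic c ε (algEquivZeroCut c ε) D) ∧ LocallyOfFiniteType D.toBase

/-- DEF: degree-zero rigidified line bundles lift along square-zero thickenings of affine
bases (`H²` of a curve vanishes).  Gives formal smoothness of `J`. -/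
def Def : Prop :=
  ∀ (A : Type u) [CommRing A] [Algebra k A] (I : Ideal A), I ^ 2 = ⊥ →
    ∀ M₀ : RigidifiedLineBundle c ε (specStr k (A ⧸ I)), FibrewiseAlgEquivZero M₀ →
      ∃ M : RigidifiedLineBundle c ε (specStr k A), FibrewiseAlgEquivZero M ∧
        RIso (M.pullbackAlong (specHomOver k (Ideal.Quotient.mkₐ k I))) M₀

/-- VAL: over a valuation ring, two degree-zero rigidified line bundles that are isomorphic
over the fraction field are isomorphic.  Gives separatedness of `J`. -/
def Val : Prop :=
  ∀ (V : Type u) [CommRing V] [IsDomain V] [ValuationRing V] [Algebra k V]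
    (K : Type u) [Field K] [Algebra V K] [IsFractionRing V K] [Algebra k K]
    [IsScalarTower k V K] (M M' : RigidifiedLineBundle c ε (specStr k V)),
    FibrewiseAlgEquivZero M → FibrewiseAlgEquivZero M' →
    RIso (M.pullbackAlong (specHomOver k (IsScalarTower.toAlgHom k V K)))
      (M'.pullbackAlong (specHomOver k (IsScalarTower.toAlgHom k V K))) → RIso M M'

/-- ABEL: there is a proper, geometrically integral `k`-scheme `X` (in practice `C^g`) and a
degree-zero rigidified line bundle on `C × X` such that every degree-zero rigidified line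
bundle over an algebraically closed field `K ⊇ k` is one of its fibres.  Gives
quasi-compactness, universal closedness and geometric connectedness of `J`. -/
def Abel : Prop :=
  ∃ (X : Scheme.{u}) (x : X ⟶ Spec (CommRingCat.of k)) (_ : IsProper x)
    (_ : GeometricallyIntegral x) (M : RigidifiedLineBundle c ε x),
    FibrewiseAlgEquivZero M ∧
      ∀ (K : Type u) [Field K] [IsAlgClosed K] [Algebra k K]
        (L : RigidifiedLineBundle c ε (specStr k K)), FibrewiseAlgEquivZero L →
        ∃ p : SchemeHomOver (specStr k K) x, RIso (M.pullbackAlong p) L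

/-! ## L1: properties of a representing object (assembly statements) -/

/-- SMOOTH (from `Def`): a representing object locally of finite type is smooth. -/
def SmoothOfRep : Prop :=
  ∀ D : RelativePic0Designation k c,
    Nonempty (RepresentsRelSubPic c ε (algEquivZeroCut c ε) D) →
      LocallyOfFiniteType D.toBase → Smooth D.toBase

/-- PROPER (from `Val` + `Abel`). -/
def ProperOfRep : Prop :=
  ∀ D : RelativePic0Designation k c,
    Nonempty (RepresentsRelSubPic c ε (algEquivZeroCut c ε) D) →
      LocallyOfFiniteType D.toBase → IsProper D.toBase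

/-- GEOMCONN (from `Abel`). -/
def GeomConnOfRep : Prop :=
  ∀ D : RelativePic0Designation k c,
    Nonempty (RepresentsRelSubPic c ε (algEquivZeroCut c ε) D) →
      LocallyOfFiniteType D.toBase → GeometricallyConnected D.toBase

end Stmt


/-! ## L2: affine charts of the functor -/

/-- A family of affine charts for the degree-zero rigidified Picard functor, tested on affine
`k`-schemes only.  `bundle i` is the universal bundle over the `i`-th chart `Spec (R i)`.
* `inj`: classifying maps into a chart are unique;
* `locus`: for a bundle `M` over `Spec A`, the locus of `Spec A` over which `M` lies in the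
  `i`-th chart is the open complement of `V(I i)`, compatibly with every base change
  `A → A'`, and these open sets cover `Spec A`. -/
structure ChartFamily where
  ι : Type u
  R : ι → Type u
  [commRing : ∀ i, CommRing (R i)]
  [algebra : ∀ i, Algebra k (R i)]
  finiteType : ∀ i, Algebra.FiniteType k (R i)
  bundle : ∀ i, RigidifiedLineBundle c ε (specStr k (R i))
  deg0 : ∀ i, FibrewiseAlgEquivZero (bundle i)
  inj : ∀ (i : ι) (A : Type u) [CommRing A] [Algebra k A] (φ ψ : R i →ₐ[k] A),
    RIso ((bundle i).pullbackAlong (specHomOver k φ))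
      ((bundle i).pullbackAlong (specHomOver k ψ)) → φ = ψ
  locus : ∀ (A : Type u) [CommRing A] [Algebra k A]
    (M : RigidifiedLineBundle c ε (specStr k A)), FibrewiseAlgEquivZero M →
    ∃ I : ι → Ideal A, (⨆ i, I i) = ⊤ ∧
      ∀ (i : ι) (A' : Type u) [CommRing A'] [Algebra k A'] (ψ : A →ₐ[k] A'),
        (∃ φ : R i →ₐ[k] A', RIso ((bundle i).pullbackAlong (specHomOver k φ))
            (M.pullbackAlong (specHomOver k ψ))) ↔ (I i).map ψ.toRingHom = ⊤

attribute [instance] ChartFamily.commRing ChartFamily.algebra

namespace Stmt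

/-- CHARTS: a chart family exists. -/
def Charts : Prop := Nonempty (ChartFamily c ε)

end Stmt

/-- TOP: the frozen statement S25 follows from the four L1 statements. -/
theorem result_of_stmts (hRep : Stmt.Rep c ε) (hS : Stmt.SmoothOfRep c ε)
    (hP : Stmt.ProperOfRep c ε) (hG : Stmt.GeomConnOfRep c ε) :
    ∃ D : RelativePic0Designation k c,
      Nonempty (RepresentsRelSubPic c ε (algEquivZeroCut c ε) D) ∧
        Smooth D.toBase ∧ IsProper D.toBase ∧ GeometricallyConnected D.toBase := by
  obtain ⟨D, hD, hlft⟩ := hRep
  exact ⟨D, hD, hS D hD hlft, hP D hD hlft, hG D hD hlft⟩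

end Setup

end

end Fermat.Agent.S25
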