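import Fermat.Agent.S25.Defs
import Fermat.Agent.S25.DefsAlg

/-!
# Row S25: the dictionary between line bundles on `C_A` and gluing data (frozen, layer L3)

Only definitions.  Row-lead: helper985.  Board: coord/S25.md.
-/

set_option autoImplicit false
universe u
open CategoryTheory CategoryTheory.Limits AlgebraicGeometry AlgebraicGeometry.RelPicard
  NeronModelInfra GoodReductionJacobian
open scoped TensorProduct

namespace Fermat.Agent.S25

noncomputable section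

variable {k : Type u} [Field k] {C : Scheme.{u}} (c : C ⟶ Spec (CommRingCat.of k))
  (ε : SchemeHomOver (𝟙 (Spec (CommRingCat.of k))) c)

/-- The structure map `k → Γ(C, U)`. -/
def sectionsStr (U : C.Opens) : k →+* Γ(C, U) :=
  ((Scheme.ΓSpecIso (CommRingCat.of k)).inv ≫ c.appTop ≫
    C.presheaf.map (homOfLE (le_top : U ≤ ⊤)).op).hom

/-- Restriction of functions `Γ(X, U) → Γ(X, V)` for `V ≤ U`. -/
def resRing {X : Scheme.{u}} {U V : X.Opens} (h : V ≤ U) : Γ(X, U) →+* Γ(X, V) :=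
  (X.presheaf.map (homOfLE h).op).hom

/-- Restriction of sections `Γ(M, U) → Γ(M, V)` for `V ≤ U`. -/
def resMod {X : Scheme.{u}} (M : X.Modules) {U V : X.Opens} (h : V ≤ U) :
    Γ(M, U) →+ Γ(M, V) :=
  (M.presheaf.map (homOfLE h).op).hom

/-- Evaluation of functions at the marked point `ε`, on an open containing it. -/
def evalAt (U : C.Opens) (h : ε.1 ⁻¹ᵁ U = ⊤) : Γ(C, U) →+* k :=
  ((ε.1.appLE U ⊤ (le_of_eq h.symm)) ≫ (Scheme.ΓSpecIso (CommRingCat.of k)).hom).hom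

/-- A two-chart presentation of the curve `C` with marked point `ε`: affine opens `U₀`, `U₁`
covering `C`, whose rings of functions (and that of `U₀ ⊓ U₁`) are identified with the rings
of a curve chart in the sense of `IsCurveChart`. -/
structure ChartOf where
  B₀ : Type u
  B₁ : Type u
  B₀₁ : Type u
  [commRing₀ : CommRing B₀]
  [commRing₁ : CommRing B₁]
  [commRing₀₁ : CommRing B₀₁]
  [algebra₀ : Algebra k B₀]
  [algebra₁ : Algebra k B₁]
  [algebra₀₁ : Algebra k B₀₁]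
  [algebraL : Algebra B₀ B₀₁]
  [algebraR : Algebra B₁ B₀₁]
  [towerL : IsScalarTower k B₀ B₀₁]
  [towerR : IsScalarTower k B₁ B₀₁]
  x : B₀
  y : B₁
  e : B₁ →ₐ[k] k
  isCurveChart : IsCurveChart k B₀ B₁ B₀₁ x y e
  U₀ : C.Opens
  U₁ : C.Opens
  isAffine₀ : IsAffineOpen U₀
  isAffine₁ : IsAffineOpen U₁
  cover : U₀ ⊔ U₁ = ⊤
  i₀ : Γ(C, U₀) ≃+* B₀
  i₁ : Γ(C, U₁) ≃+* B₁
  i₀₁ : Γ(C, U₀ ⊓ U₁) ≃+* B₀₁
  i₀_str : ∀ a : k, i₀ (sectionsStr c U₀ a) = algebraMap k B₀ a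
  i₁_str : ∀ a : k, i₁ (sectionsStr c U₁ a) = algebraMap k B₁ a
  i₀₁_res₀ : ∀ f : Γ(C, U₀), i₀₁ (resRing inf_le_left f) = algebraMap B₀ B₀₁ (i₀ f)
  i₀₁_res₁ : ∀ f : Γ(C, U₁), i₀₁ (resRing inf_le_right f) = algebraMap B₁ B₀₁ (i₁ f)
  inf_eq₀ : U₀ ⊓ U₁ = C.basicOpen (i₀.symm x)
  inf_eq₁ : U₀ ⊓ U₁ = C.basicOpen (i₁.symm y)
  eps_mem : ε.1 ⁻¹ᵁ U₁ = ⊤
  e_eq : ∀ f : Γ(C, U₁), e (i₁ f) = evalAt c ε U₁ eps_mem f

attribute [instance] ChartOf.commRing₀ ChartOf.commRing₁ ChartOf.commRing₀₁ ChartOf.algebra₀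
  ChartOf.algebra₁ ChartOf.algebra₀₁ ChartOf.algebraL ChartOf.algebraR ChartOf.towerL
  ChartOf.towerR

namespace Stmt

/-- CHART (BR1): the curve has a two-chart presentation. -/
def Chart : Prop := Nonempty (ChartOf c ε)

end Stmt

section Corr

variable {c ε} (Ch : ChartOf c ε) (A : Type u) [CommRing A] [Algebra k A]

/-- The preimage in `C_A = pullback c (specStr k A)` of an open of `C`. -/
abbrev preimageOpen (U : C.Opens) : (pullback c (specStr k A)).Opens :=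
  (pullback.fst c (specStr k A)) ⁻¹ᵁ U

/-- `A → Γ(C_A, V)`. -/
def baseToSections (V : (pullback c (specStr k A)).Opens) :
    A →+* Γ(pullback c (specStr k A), V) :=
  ((Scheme.ΓSpecIso (CommRingCat.of A)).inv ≫ (pullback.snd c (specStr k A)).appTop ≫
    (pullback c (specStr k A)).presheaf.map (homOfLE (le_top : V ≤ ⊤)).op).hom

/-- `Γ(C, U) → Γ(C_A, preimage of U)`. -/
def curveToSections (U : C.Opens) :
    Γ(C, U) →+* Γ(pullback c (specStr k A), preimageOpen (c := c) A U) :=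
  ((pullback.fst c (specStr k A)).app U).hom

/-- An additive bijection `e : Γ(L, preimage of U) ≃ N` identifies the module of sections
over the preimage of `U` with the `A ⊗[k] B`-module `N`, where `i : Γ(C, U) ≃+* B`. -/
def IsSectionsIso (L : (pullback c (specStr k A)).Modules) (U : C.Opens) {B : Type u}
    [CommRing B] [Algebra k B] (i : Γ(C, U) ≃+* B) {N : Type u} [AddCommGroup N]
    [Module (A ⊗[k] B) N] (e : Γ(L, preimageOpen (c := c) A U) ≃+ N) : Prop :=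
  (∀ (a : A) (s : Γ(L, preimageOpen (c := c) A U)),
      e (baseToSections (c := c) A (preimageOpen (c := c) A U) a • s) =
        (a ⊗ₜ[k] (1 : B)) • e s) ∧
    ∀ (f : Γ(C, U)) (s : Γ(L, preimageOpen (c := c) A U)),
      e (curveToSections (c := c) A U f • s) = ((1 : A) ⊗ₜ[k] i f) • e s

/-- CORR: `G` is (isomorphic to) the gluing datum of sections of the line bundle `L` on
`C_A` over the preimages of `U₀`, `U₁`, `U₀ ⊓ U₁`. -/
def Corr (L : (pullback c (specStr k A)).Modules) (G : CurveGD k Ch.B₀ Ch.B₁ Ch.B₀₁ A) : Prop :=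
  ∃ (e₀ : Γ(L, preimageOpen (c := c) A Ch.U₀) ≃+ G.N₀)
    (e₁ : Γ(L, preimageOpen (c := c) A Ch.U₁) ≃+ G.N₁)
    (e₀₁ : Γ(L, preimageOpen (c := c) A (Ch.U₀ ⊓ Ch.U₁)) ≃+ G.N₀₁),
    IsSectionsIso A L Ch.U₀ Ch.i₀ e₀ ∧ IsSectionsIso A L Ch.U₁ Ch.i₁ e₁ ∧
      IsSectionsIso A L (Ch.U₀ ⊓ Ch.U₁) Ch.i₀₁ e₀₁ ∧
      (∀ s, e₀₁ (resMod L (show preimageOpen (c := c) A (Ch.U₀ ⊓ Ch.U₁) ≤
          preimageOpen (c := c) A Ch.U₀ from
            (Scheme.Hom.preimage_mono _ inf_le_left)) s) = G.r₀ (e₀ s)) ∧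
      (∀ s, e₀₁ (resMod L (show preimageOpen (c := c) A (Ch.U₀ ⊓ Ch.U₁) ≤
          preimageOpen (c := c) A Ch.U₁ from
            (Scheme.Hom.preimage_mono _ inf_le_right)) s) = G.r₁ (e₁ s))

end Corr

namespace Stmt

variable {c ε} (Ch : ChartOf c ε)

/-- DICT-SEC: every rigidified line bundle on `C_A` has a gluing datum of sections, and it
is rigidifiable. -/
def DictSections : Prop :=
  ∀ (A : Type u) [CommRing A] [Algebra k A] (M : RigidifiedLineBundle c ε (specStr k A)),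
    ∃ G : CurveGD k Ch.B₀ Ch.B₁ Ch.B₀₁ A, Corr Ch A M.L G ∧ G.Rigidifiable Ch.e

/-- DICT-GLUE: every rigidifiable gluing datum over `A` is the gluing datum of sections of a
rigidified line bundle on `C_A`. -/
def DictGlue : Prop :=
  ∀ (A : Type u) [CommRing A] [Algebra k A] (G : CurveGD k Ch.B₀ Ch.B₁ Ch.B₀₁ A),
    G.Rigidifiable Ch.e → ∃ M : RigidifiedLineBundle c ε (specStr k A), Corr Ch A M.L G

/-- DICT-ISO: the correspondence preserves and reflects isomorphism. -/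
def DictIso : Prop :=
  ∀ (A : Type u) [CommRing A] [Algebra k A] (M M' : RigidifiedLineBundle c ε (specStr k A))
    (G G' : CurveGD k Ch.B₀ Ch.B₁ Ch.B₀₁ A), Corr Ch A M.L G → Corr Ch A M'.L G' →
      (RIso M M' ↔ G.IsIso G')

/-- DICT-BC: pullback along `Spec A' → Spec A` corresponds to base change of gluing data. -/
def DictBC : Prop :=
  ∀ (A A' : Type u) [CommRing A] [Algebra k A] [CommRing A'] [Algebra k A'] (φ : A →ₐ[k] A')
    (M : RigidifiedLineBundle c ε (specStr k A)) (G : CurveGD k Ch.B₀ Ch.B₁ Ch.B₀₁ A)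
    (G' : CurveGD k Ch.B₀ Ch.B₁ Ch.B₀₁ A'), Corr Ch A M.L G → CurveGD.IsBC φ G G' →
      Corr Ch A' (M.pullbackAlong (specHomOver k φ)).L G'

/-- ALG-BC-EXISTS: base changes of gluing data exist (pure algebra). -/
def AlgBCExists : Prop :=
  ∀ (A A' : Type u) [CommRing A] [Algebra k A] [CommRing A'] [Algebra k A'] (φ : A →ₐ[k] A')
    (G : CurveGD k Ch.B₀ Ch.B₁ Ch.B₀₁ A),
    ∃ G' : CurveGD k Ch.B₀ Ch.B₁ Ch.B₀₁ A', CurveGD.IsBC φ G G'

/-- DICT-DEG (BR4): the Prelude's `FibrewiseAlgEquivZero` is fibrewise degree zero of the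
gluing datum. -/
def DictDeg : Prop :=
  ∀ (A : Type u) [CommRing A] [Algebra k A] (M : RigidifiedLineBundle c ε (specStr k A))
    (G : CurveGD k Ch.B₀ Ch.B₁ Ch.B₀₁ A), Corr Ch A M.L G →
      (FibrewiseAlgEquivZero M ↔ G.Deg0)

end Stmt

end

end Fermat.Agent.S25
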